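/-
Cluster GAL, block 15 (helper46).  Abstract glue: a lattice `Λ` with an action of a commutative
ring `TT`, a surjection `π : Λ → W` with kernel `p ^ k • Λ`, and a Galois action on `W` commuting
with the descended Hecke operators give one layer `Fermat.Agent.S30.Level` of the tower.
-/
import Fermat.Agent.S30.Defs

set_option autoImplicit false

namespace Fermat.Agent.GAL.Tower

open Fermat.Agent.S30

section Descend

variable {Λ W R : Type*} [AddCommGroup Λ] [AddCommGroup W] [Ring R]

/-- An action of a ring on `Λ` descends along a surjection whose kernel is stable. -/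
theorem exists_descend (π : Λ →ₗ[ℤ] W) (hπ : Function.Surjective π) (a : R →+* Module.End ℤ Λ)
    (hker : ∀ r x, π x = 0 → π (a r x) = 0) :
    ∃ b : R →+* Module.End ℤ W, ∀ r x, b r (π x) = π (a r x) := by
  classical
  have hwd : ∀ r x y, π x = π y → π (a r x) = π (a r y) := by
    intro r x y h
    have h0 : π (x - y) = 0 := by rw [map_sub, h, sub_self]
    have h1 := hker r _ h0
    rwa [map_sub, map_sub, sub_eq_zero] at h1
  choose s hs using hπ
  let f : R → Module.End ℤ W := fun r =>
    (AddMonoidHom.mk' (fun w => π (a r (s w))) (by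
      intro w w'
      rw [← map_add, ← map_add]
      apply hwd
      rw [map_add, hs, hs, hs])).toIntLinearMap
  have hf : ∀ r x, f r (π x) = π (a r x) := fun r x => hwd r _ _ (hs _)
  have hsurj : ∀ w, ∃ x, π x = w := fun w => ⟨s w, hs w⟩
  refine ⟨{ toFun := f, map_one' := ?_, map_mul' := ?_, map_zero' := ?_, map_add' := ?_ }, hf⟩
  · refine LinearMap.ext fun w => ?_
    obtain ⟨x, rfl⟩ := hsurj w
    rw [hf, map_one, Module.End.one_apply, Module.End.one_apply]
  · intro r r'
    refine LinearMap.ext fun w => ?_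
    obtain ⟨x, rfl⟩ := hsurj w
    rw [hf, map_mul, Module.End.mul_apply, Module.End.mul_apply, hf, hf]
  · refine LinearMap.ext fun w => ?_
    obtain ⟨x, rfl⟩ := hsurj w
    rw [hf, map_zero, LinearMap.zero_apply, LinearMap.zero_apply, map_zero]
  · intro r r'
    refine LinearMap.ext fun w => ?_
    obtain ⟨x, rfl⟩ := hsurj w
    rw [hf, map_add, LinearMap.add_apply, LinearMap.add_apply, hf, hf, map_add]

end Descend

/-- **Abstract glue.** -/
theorem nonempty_level_of_lattice {N p : ℕ} {S : Finset ℕ} {𝒪 : Type} [CommRing 𝒪] (k : ℕ)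
    {Λ W TT : Type} [AddCommGroup Λ] [AddCommGroup W] [CommRing TT]
    (lat : TT →+* Module.End ℤ Λ) (π : Λ →ₗ[ℤ] W) (hπ : Function.Surjective π)
    (hW : ∀ w : W, (p ^ k : ℕ) • w = 0)
    (hker : ∀ x, π x = 0 → ∃ y, x = (p ^ k : ℕ) • y)
    (gen : ℕ → TT) (χ : TT →+* 𝒪) (a : ℕ → 𝒪) (ha : ∀ i, χ (gen i) = a i)
    (ρ : GQ →* Module.End ℤ W)
    (TW : ℕ → Module.End ℤ W) (hTW : ∀ i x, TW i (π x) = π (lat (gen i) x))
    (hcomm : ∀ i σ w, TW i (ρ σ w) = ρ σ (TW i w))
    (finiteLevel : ∃ L : IntermediateField ℚ (AlgebraicClosure ℚ), FiniteDimensional ℚ L ∧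
      ∀ σ : GQ, (∀ x ∈ L, σ x = x) → ρ σ = 1)
    (unramified : ∀ q : ℕ, q.Prime → ¬ q ∣ N → q ≠ p → ∀ σ : GQ, IsInertia σ q → ρ σ = 1)
    (eichlerShimura : ∀ ℓ : ℕ, ℓ.Prime → ℓ ∉ S → ∀ σ : GQ, IsFrob σ ℓ →
      ∀ w : W, ρ σ (ρ σ w) - TW ℓ (ρ σ w) + (ℓ : ℕ) • w = 0)
    (faith : ∀ t : TT, (∀ x, ∃ y, lat t x = (p ^ k : ℕ) • y) →
      χ t ∈ Ideal.span {((p ^ k : ℕ) : 𝒪)}) :
    Nonempty (Level N p S a k) := by
  obtain ⟨b, hb⟩ := exists_descend π hπ lat (by
    intro r x hx
    obtain ⟨y, rfl⟩ := hker x hx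
    rw [map_nsmul, map_nsmul]
    exact hW _)
  let ev : HA →+* TT := (MvPolynomial.aeval gen).toRingHom
  have hevX : ∀ i, ev (MvPolynomial.X i) = gen i := fun i => MvPolynomial.aeval_X _ i
  have hbgen : ∀ i, b (gen i) = TW i := by
    intro i
    refine LinearMap.ext fun w => ?_
    obtain ⟨x, rfl⟩ := hπ w
    rw [hb, hTW]
  let _ : Module HA W := Module.compHom W (b.comp ev)
  have hsmul : ∀ (P : HA) (w : W), P • w = b (ev P) w := fun _ _ => rfl
  have hcommP : ∀ (P : HA) (σ : GQ) (w : W), ρ σ (b (ev P) w) = b (ev P) (ρ σ w) := by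
    intro P
    induction P using MvPolynomial.induction_on with
    | C c =>
      intro σ w
      have h1 : ev (MvPolynomial.C c) = (c : TT) := by
        have := MvPolynomial.aeval_C gen c
        simp [ev]
      have h2 : ∀ v : W, b (ev (MvPolynomial.C c)) v = c • v := by
        intro v
        rw [h1, map_intCast]
        simp
      rw [h2, h2, map_zsmul]
    | add P Q hP hQ =>
      intro σ w
      rw [map_add, map_add, LinearMap.add_apply, LinearMap.add_apply, map_add, hP, hQ]
    | mul_X P i hP =>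
      intro σ w
      rw [map_mul, map_mul, hevX, hbgen, Module.End.mul_apply, Module.End.mul_apply, hP, hcomm]
  let ρ' : GQ →* Module.End HA W :=
    { toFun := fun σ =>
        { toFun := fun w => ρ σ w
          map_add' := fun v w => map_add _ v w
          map_smul' := fun P w => by
            rw [hsmul, hcommP]
            rfl }
      map_one' := by
        refine LinearMap.ext fun w => ?_
        show ρ 1 w = w
        rw [map_one, Module.End.one_apply]
      map_mul' := fun σ τ => by
        refine LinearMap.ext fun w => ?_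
        show ρ (σ * τ) w = ρ σ (ρ τ w)
        rw [map_mul, Module.End.mul_apply] }
  have hρ' : ∀ σ w, ρ' σ w = ρ σ w := fun _ _ => rfl
  have hone : ∀ σ, ρ σ = 1 → ρ' σ = 1 := by
    intro σ h
    refine LinearMap.ext fun w => ?_
    rw [hρ', h, Module.End.one_apply, Module.End.one_apply]
  refine ⟨{ W := W, ρ := ρ', pow_smul := hW, finiteLevel := ?_, unramified := ?_,
            eichlerShimura := ?_, faithful := ?_ }⟩
  · obtain ⟨L, hL, h⟩ := finiteLevel
    exact ⟨L, hL, fun σ hσ => hone σ (h σ hσ)⟩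
  · intro q hq hqN hqp σ hσ
    exact hone σ (unramified q hq hqN hqp σ hσ)
  · intro ℓ hℓ hℓS σ hσ w
    rw [hρ', hρ', hsmul, hevX, hbgen]
    exact eichlerShimura ℓ hℓ hℓS σ hσ w
  · intro P hP
    have h1 : χ (ev P) ∈ Ideal.span {((p ^ k : ℕ) : 𝒪)} := by
      apply faith
      intro x
      apply hker
      rw [← hb, ← hsmul]
      exact hP _
    have h2 : χ (ev P) = MvPolynomial.aeval a P := by
      have : (χ.comp ev) = (MvPolynomial.aeval a : HA →ₐ[ℤ] 𝒪).toRingHom := by
        apply MvPolynomial.ringHom_ext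
        · intro c
          simp
        · intro i
          show χ (ev (MvPolynomial.X i)) = MvPolynomial.aeval a (MvPolynomial.X i)
          rw [hevX, ha, MvPolynomial.aeval_X]
      exact congrArg (fun f : HA →+* 𝒪 => f P) this
    rw [← h2]
    exact h1

end Fermat.Agent.GAL.Tower
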