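/-
Cluster GAL, block 15 (helper46).  THE CONTRACT between the blocks E (Kummer model, helper203 and
helper33), M (multiplier map, helper144 and helper269), H (Hecke action on the lattice, helper119
and helper261) and the top of S30 (helper216):

* `KummerPackage N n` is what E + M have to deliver for `n = p ^ k`;
* the three hypotheses `latHom`, `latHom_T`, `faith` of `nonempty_level` are what H delivers;
* the conclusion is one layer `Fermat.Agent.S30.Level` of the Hecke-Galois tower.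
-/
import Fermat.Agent.GAL.Tower.Abstract
import Fermat.Agent.S16.Lift.Count
import Fermat.Agent.Lib.HeckeHom.Gamma0

set_option autoImplicit false

namespace Fermat.Agent.GAL.Tower

open Fermat.Agent.S30 Fermat.Agent.S16.Lift Fermat.Agent.Lib.HeckeHom
open CongruenceSubgroup ModularCurve.Period CuspForm

/-- What the blocks E (Kummer model) and M (multiplier map) deliver at level `N`, exponent `n`. -/
structure KummerPackage (N n : ℕ) : Type 1 where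
  /-- the Kummer group `{u ∈ F_N^× : n ∣ div u} / F_N^{× n}`, written additively -/
  W : Type
  [instAddCommGroup : AddCommGroup W]
  /-- the Galois action (on the coefficients of `q`-expansions) -/
  ρ : GQ → W →+ W
  ρ_one : ∀ w, ρ 1 w = w
  ρ_mul : ∀ σ τ w, ρ (σ * τ) w = ρ σ (ρ τ w)
  /-- the multiplicative Hecke operator -/
  T : ∀ ℓ : ℕ, ℓ.Prime → ¬ ℓ ∣ N → W →+ W
  T_ρ : ∀ (ℓ : ℕ) (hℓ : ℓ.Prime) (hℓN : ¬ ℓ ∣ N) (σ : GQ) (w : W),
    T ℓ hℓ hℓN (ρ σ w) = ρ σ (T ℓ hℓ hℓN w)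
  openStab : ∀ w : W, ∃ L : IntermediateField ℚ (AlgebraicClosure ℚ), FiniteDimensional ℚ L ∧
    ∀ σ : GQ, (∀ x ∈ L, σ x = x) → ρ σ w = w
  unramified : ∀ q : ℕ, q.Prime → ¬ q ∣ N → ¬ q ∣ n → ∀ σ : GQ, IsInertia σ q → ∀ w, ρ σ w = w
  eichlerShimura : ∀ (ℓ : ℕ) (hℓ : ℓ.Prime) (hℓN : ¬ ℓ ∣ N), ¬ ℓ ∣ n → ∀ σ : GQ, IsFrob σ ℓ →
    ∀ w : W, ρ σ (ρ σ w) - T ℓ hℓ hℓN (ρ σ w) + (ℓ : ℕ) • w = 0
  /-- the multiplier map -/
  mult : W →+ (Additive (Gamma0 N) →+ ZMod n)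
  mult_injective : Function.Injective mult
  mult_mem : ∀ w, mult w ∈ homPE N (ZMod n)
  mult_surjective : ∀ ψ ∈ homPE N (ZMod n), ∃ w, mult w = ψ
  mult_T : ∀ (ℓ : ℕ) (hℓ : ℓ.Prime) (hℓN : ¬ ℓ ∣ N) (w : W),
    mult (T ℓ hℓ hℓN w) = heckeHomT hℓ hℓN (mult w)

attribute [instance] KummerPackage.instAddCommGroup

/-- The generators of the Hecke algebra, indexed by `ℕ` (zero at the bad indices). -/
noncomputable def gen (N : ℕ) [NeZero N] (S : Finset ℕ) (i : ℕ) :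
    heckeAlgebra N 2 (↑S : Set ℕ) :=
  open Classical in
  if h : i.Prime ∧ ¬ i ∣ N ∧ i ∉ (↑S : Set ℕ) then heckeAlgebra.T h.1 h.2.1 h.2.2 else 0

/-- Naturality of `heckeHomT` for the reduction `ℤ → ZMod n`. -/
theorem heckeHomT_castTo {N ℓ : ℕ} (hℓ : ℓ.Prime) (hℓN : ¬ ℓ ∣ N) (n : ℕ)
    (φ : Additive (Gamma0 N) →+ ℤ) :
    heckeHomT hℓ hℓN (castTo (ZMod n) φ) = castTo (ZMod n) (heckeHomT hℓ hℓN φ) := by
  have : Fact ℓ.Prime := ⟨hℓ⟩
  exact (isHeckeFamily_T hℓN).heckeHom_comp (Int.castAddHom (ZMod n)) φ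

/-- An integral parabolic homomorphism which vanishes modulo `n` is divisible by `n`. -/
theorem exists_eq_nsmul_of_castTo_eq_zero {N n : ℕ} (hn : 0 < n)
    (φ : parabolicHoms ℤ (Gamma0 N) ℤ)
    (h : castTo (ZMod n) (φ : Additive (Gamma0 N) →+ ℤ) = 0) :
    ∃ ψ : parabolicHoms ℤ (Gamma0 N) ℤ, φ = n • ψ := by
  have hdvd : ∀ x, (n : ℤ) ∣ (φ : Additive (Gamma0 N) →+ ℤ) x := by
    intro x
    rw [← ZMod.intCast_zmod_eq_zero_iff_dvd]
    exact congrArg (fun χ : Additive (Gamma0 N) →+ ZMod n => χ x) h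
  have hn' : (n : ℤ) ≠ 0 := by exact_mod_cast hn.ne'
  let ψ : Additive (Gamma0 N) →+ ℤ :=
    AddMonoidHom.mk' (fun x => (φ : Additive (Gamma0 N) →+ ℤ) x / n) (by
      intro x y
      rw [map_add]
      exact Int.add_ediv_of_dvd_left (hdvd x))
  have hψ : n • ψ = (φ : Additive (Gamma0 N) →+ ℤ) := by
    refine AddMonoidHom.ext fun x => ?_
    show n • ((φ : Additive (Gamma0 N) →+ ℤ) x / n) = _
    rw [nsmul_eq_mul, Int.mul_ediv_cancel' (hdvd x)]
  have hψΛ : ψ ∈ parabolicHoms ℤ (Gamma0 N) ℤ := by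
    intro γ hγ
    have h1 : (φ : Additive (Gamma0 N) →+ ℤ) (Additive.ofMul γ) = 0 := φ.2 γ hγ
    show (φ : Additive (Gamma0 N) →+ ℤ) (Additive.ofMul γ) / n = 0
    rw [h1, Int.zero_ediv]
  exact ⟨⟨ψ, hψΛ⟩, Subtype.ext hψ.symm⟩

/-- **The glue**: E + M + H give one layer of the Hecke-Galois tower. -/
theorem nonempty_level {N p : ℕ} [NeZero N] (hp : p.Prime) {S : Finset ℕ} (hpS : p ∈ S)
    (hNS : ∀ q : ℕ, q.Prime → q ∣ N → q ∈ S) {𝒪 : Type} [CommRing 𝒪]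
    (χ : heckeAlgebra N 2 (↑S : Set ℕ) →+* 𝒪) (k : ℕ)
    (pk : KummerPackage N (p ^ k))
    (latHom : heckeAlgebra N 2 (↑S : Set ℕ) →+* Module.End ℤ (parabolicHoms ℤ (Gamma0 N) ℤ))
    (latHom_T : ∀ (ℓ : ℕ) (hℓ : ℓ.Prime) (hℓN : ¬ ℓ ∣ N) (hℓS : ℓ ∉ (↑S : Set ℕ))
      (φ : parabolicHoms ℤ (Gamma0 N) ℤ),
      ((latHom (heckeAlgebra.T hℓ hℓN hℓS) φ : parabolicHoms ℤ (Gamma0 N) ℤ) :
        Additive (Gamma0 N) →+ ℤ) = heckeHomT hℓ hℓN (φ : Additive (Gamma0 N) →+ ℤ))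
    (faith : ∀ t : heckeAlgebra N 2 (↑S : Set ℕ),
      (∀ φ : parabolicHoms ℤ (Gamma0 N) ℤ, castTo (ZMod (p ^ k))
        ((latHom t φ : parabolicHoms ℤ (Gamma0 N) ℤ) : Additive (Gamma0 N) →+ ℤ) = 0) →
      ((p ^ k : ℕ) : 𝒪) ∣ χ t) :
    Nonempty (Level N p S (fun i => χ (gen N S i)) k) := by
  classical
  have hn : 0 < p ^ k := pow_pos hp.pos k
  set n := p ^ k with hn_def
  -- the reduction map `Λ → W`
  have hred : ∀ φ : parabolicHoms ℤ (Gamma0 N) ℤ,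
      castTo (ZMod n) (φ : Additive (Gamma0 N) →+ ℤ) ∈ homPE N (ZMod n) := by
    intro φ x hx
    show (((φ : Additive (Gamma0 N) →+ ℤ) x : ℤ) : ZMod n) = 0
    rw [apply_eq_zero_of_mem_peSet φ.2 hx]
    simp
  choose s hs using fun φ => pk.mult_surjective _ (hred φ)
  let π : parabolicHoms ℤ (Gamma0 N) ℤ →ₗ[ℤ] pk.W :=
    (AddMonoidHom.mk' s (by
      intro φ ψ
      apply pk.mult_injective
      rw [map_add, hs, hs, hs]
      exact map_add (castTo (ZMod n)) _ _)).toIntLinearMap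
  have hπ : ∀ φ, pk.mult (π φ) = castTo (ZMod n) (φ : Additive (Gamma0 N) →+ ℤ) := hs
  have hW : ∀ w : pk.W, n • w = 0 := by
    intro w
    apply pk.mult_injective
    rw [map_nsmul, map_zero]
    refine AddMonoidHom.ext fun x => ?_
    show n • (pk.mult w x) = 0
    rw [nsmul_eq_mul, ZMod.natCast_self, zero_mul]
  have hfin : Finite pk.W := by
    have h1 : Finite (homPE N (ZMod n)) := by
      apply Nat.finite_of_card_ne_zero
      rw [card_homPE N n hn]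
      exact (pow_pos hn _).ne'
    exact Finite.of_injective (fun w => (⟨pk.mult w, pk.mult_mem w⟩ : homPE N (ZMod n)))
      (fun v w h => pk.mult_injective (congrArg Subtype.val h))
  let ρ : GQ →* Module.End ℤ pk.W :=
    { toFun := fun σ => (pk.ρ σ).toIntLinearMap
      map_one' := LinearMap.ext fun w => pk.ρ_one w
      map_mul' := fun σ τ => LinearMap.ext fun w => pk.ρ_mul σ τ w }
  have hρ : ∀ σ w, ρ σ w = pk.ρ σ w := fun _ _ => rfl
  let TW : ℕ → Module.End ℤ pk.W := fun i =>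
    if h : i.Prime ∧ ¬ i ∣ N ∧ i ∉ (↑S : Set ℕ) then (pk.T i h.1 h.2.1).toIntLinearMap else 0
  have hTWgood : ∀ (i : ℕ) (h : i.Prime ∧ ¬ i ∣ N ∧ i ∉ (↑S : Set ℕ)) (w : pk.W),
      TW i w = pk.T i h.1 h.2.1 w := by
    intro i h w
    simp only [TW, dif_pos h]
    rfl
  have hTWbad : ∀ (i : ℕ) (_ : ¬ (i.Prime ∧ ¬ i ∣ N ∧ i ∉ (↑S : Set ℕ))) (w : pk.W),
      TW i w = 0 := by
    intro i h w
    simp only [TW, dif_neg h]
    rfl
  have hnotdvd : ∀ q : ℕ, q.Prime → q ≠ p → ¬ q ∣ n := by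
    intro q hq hqp hdvd
    exact hqp ((Nat.prime_dvd_prime_iff_eq hq hp).mp (hq.dvd_of_dvd_pow hdvd))
  refine nonempty_level_of_lattice (N := N) (p := p) (S := S) k latHom π ?_ hW ?_ (gen N S) χ _
    (fun _ => rfl) ρ TW ?_ ?_ ?_ ?_ ?_ ?_
  · -- surjectivity of `π`
    intro w
    obtain ⟨φ, hφ, hφw⟩ := exists_lift_of_mem_homPE N n (pk.mult_mem w)
    refine ⟨⟨φ, hφ⟩, pk.mult_injective ?_⟩
    rw [hπ, hφw]
  · -- the kernel of `π`
    intro φ hφ
    apply exists_eq_nsmul_of_castTo_eq_zero hn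
    rw [← hπ, hφ, map_zero]
  · -- `TW` is induced by the Hecke action on the lattice
    intro i φ
    by_cases h : i.Prime ∧ ¬ i ∣ N ∧ i ∉ (↑S : Set ℕ)
    · apply pk.mult_injective
      rw [hTWgood i h, pk.mult_T, hπ, hπ, heckeHomT_castTo]
      congr 1
      have : gen N S i = heckeAlgebra.T h.1 h.2.1 h.2.2 := by
        unfold gen
        rw [dif_pos h]
      rw [this, latHom_T]
    · have : gen N S i = 0 := by
        unfold gen
        rw [dif_neg h]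
      rw [hTWbad i h, this, map_zero, LinearMap.zero_apply, map_zero]
  · -- commutation
    intro i σ w
    by_cases h : i.Prime ∧ ¬ i ∣ N ∧ i ∉ (↑S : Set ℕ)
    · rw [hTWgood i h, hTWgood i h, hρ, hρ, pk.T_ρ]
    · rw [hTWbad i h, hTWbad i h, map_zero]
  · -- finite level
    choose L hL hLσ using pk.openStab
    refine ⟨⨆ w, L w, ?_, ?_⟩
    · have := hL
      exact IntermediateField.finiteDimensional_iSup_of_finite
    · intro σ hσ
      refine LinearMap.ext fun w => ?_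
      rw [hρ, Module.End.one_apply]
      exact hLσ w σ fun x hx => hσ x ((le_iSup L w) hx)
  · -- unramified
    intro q hq hqN hqp σ hσ
    refine LinearMap.ext fun w => ?_
    rw [hρ, Module.End.one_apply]
    exact pk.unramified q hq hqN (hnotdvd q hq hqp) σ hσ w
  · -- Eichler-Shimura
    intro ℓ hℓ hℓS σ hσ w
    have hℓN : ¬ ℓ ∣ N := fun h => hℓS (hNS ℓ hℓ h)
    have hℓp : ℓ ≠ p := fun h => hℓS (h ▸ hpS)
    have hgood : ℓ.Prime ∧ ¬ ℓ ∣ N ∧ ℓ ∉ (↑S : Set ℕ) :=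
      ⟨hℓ, hℓN, fun h => hℓS (Finset.mem_coe.mp h)⟩
    rw [hTWgood ℓ hgood, hρ, hρ]
    exact pk.eichlerShimura ℓ hℓ hℓN (hnotdvd ℓ hℓ hℓp) σ hσ w
  · -- faithfulness
    intro t ht
    rw [Ideal.mem_span_singleton]
    apply faith
    intro φ
    obtain ⟨ψ, hψ⟩ := ht φ
    rw [hψ]
    refine AddMonoidHom.ext fun x => ?_
    show (((n • ψ : parabolicHoms ℤ (Gamma0 N) ℤ) : Additive (Gamma0 N) →+ ℤ) x : ZMod n) = 0
    have : ((n • ψ : parabolicHoms ℤ (Gamma0 N) ℤ) : Additive (Gamma0 N) →+ ℤ) x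
        = (n : ℤ) * (ψ : Additive (Gamma0 N) →+ ℤ) x := by
      simp
    rw [this]
    push_cast
    rw [ZMod.natCast_self, zero_mul]

end Fermat.Agent.GAL.Tower
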