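/-
Cluster GAL, block 15 (helper46).  The glue in the exact shape consumed by
`Fermat.Agent.S30.result_of_tower`.
-/
import Fermat.Agent.GAL.Tower.Contract
import Fermat.Agent.S30.Assembly

set_option autoImplicit false

namespace Fermat.Agent.GAL.Tower

open Fermat.Agent.S30 Fermat.Agent.S16.Lift Fermat.Agent.Lib.HeckeHom
open CongruenceSubgroup ModularCurve.Period CuspForm

theorem aOf_eq_gen {N : ℕ} [NeZero N] {S : Finset ℕ} {𝒪 : Type} [CommRing 𝒪]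
    (χ : heckeAlgebra N 2 (↑S : Set ℕ) →+* 𝒪) : aOf χ = fun i => χ (gen N S i) := by
  funext i
  unfold aOf gen
  split_ifs
  · rfl
  · rw [map_zero]

/-- E + M + H give the tower consumed by `Fermat.Agent.S30.result_of_tower`. -/
theorem nonempty_level_aOf {N p : ℕ} [NeZero N] (hp : p.Prime) {S : Finset ℕ} (hpS : p ∈ S)
    (hNS : ∀ q : ℕ, q.Prime → q ∣ N → q ∈ S) {𝒪 : Type} [CommRing 𝒪]
    (χ : heckeAlgebra N 2 (↑S : Set ℕ) →+* 𝒪) (k : ℕ)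
    (pk : KummerPackage N (p ^ k))
    (latHom : heckeAlgebra N 2 (↑S : Set ℕ) →+* Module.End ℤ (parabolicHoms ℤ (Gamma0 N) ℤ))
    (latHom_T : ∀ (ℓ : ℕ) (hℓ : ℓ.Prime) (hℓN : ¬ ℓ ∣ N) (hℓS : ℓ ∉ (↑S : Set ℕ))
      (φ : parabolicHoms ℤ (Gamma0 N) ℤ),
      ((latHom (heckeAlgebra.T hℓ hℓN hℓS) φ : parabolicHoms ℤ (Gamma0 N) ℤ) :
        Additive (Gamma0 N) →+ ℤ) = heckeHomT hℓ hℓN (φ : Additive (Gamma0 N) →+ ℤ))
    (faith : ∀ t : heckeAlgebra N 2 (↑S : Set ℕ),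
      (∀ φ : parabolicHoms ℤ (Gamma0 N) ℤ, castTo (ZMod (p ^ k))
        ((latHom t φ : parabolicHoms ℤ (Gamma0 N) ℤ) : Additive (Gamma0 N) →+ ℤ) = 0) →
      ((p ^ k : ℕ) : 𝒪) ∣ χ t) :
    Nonempty (Level N p S (aOf χ) k) := by
  rw [aOf_eq_gen]
  exact nonempty_level hp hpS hNS χ k pk latHom latHom_T faith

end Fermat.Agent.GAL.Tower
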