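/-
Cluster GAL (helper119, block H): the three hypotheses of block H in helper46's contract
`nonempty_level_aOf` are discharged, and the Frobenius density theorem is plugged in.
Result: the conclusion of S30 follows from a family of Kummer packages.
-/
import Fermat.Agent.GAL.Tower.Final
import Fermat.Agent.Lib.HeckeHom.Faithful
import Fermat.Agent.Lib.FrobDensity

set_option autoImplicit false

namespace Fermat.Agent.GAL.Tower

open Fermat.Agent.S30 Fermat.Agent.S16.Lift Fermat.Agent.Lib.HeckeHom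
open CongruenceSubgroup ModularCurve.Period CuspForm Polynomial

/-- The field `faith` of the contract. -/
theorem faith_of_H {N : ℕ} [NeZero N] (S : Set ℕ) {n : ℕ} (hn : 0 < n) {𝒪 : Type*} [CommRing 𝒪]
    [IsDomain 𝒪] [IsIntegrallyClosed 𝒪] [CharZero 𝒪] (χ : heckeAlgebra N 2 S →+* 𝒪)
    (t : heckeAlgebra N 2 S)
    (ht : ∀ φ : parabolicHoms ℤ (Gamma0 N) ℤ, castTo (ZMod n)
      ((latHom N S t φ : parabolicHoms ℤ (Gamma0 N) ℤ) : Additive (Gamma0 N) →+ ℤ) = 0) :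
    ((n : ℕ) : 𝒪) ∣ χ t := by
  refine natCast_dvd_of_actMod_eq_zero N S n hn t ?_ χ
  rw [actMod_eq_zero_iff]
  intro φ
  rw [← redHom_eq_zero_iff]
  exact Subtype.ext (ht φ)

/-- E + M give the tower: block H is discharged. -/
theorem nonempty_level_of_package {N p : ℕ} [NeZero N] (hp : p.Prime) {S : Finset ℕ}
    (hpS : p ∈ S) (hNS : ∀ q : ℕ, q.Prime → q ∣ N → q ∈ S) {𝒪 : Type} [CommRing 𝒪]
    [IsDomain 𝒪] [IsIntegrallyClosed 𝒪] [CharZero 𝒪]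
    (χ : heckeAlgebra N 2 (↑S : Set ℕ) →+* 𝒪) (k : ℕ) (pk : KummerPackage N (p ^ k)) :
    Nonempty (Level N p S (aOf χ) k) :=
  nonempty_level_aOf hp hpS hNS χ k pk (latHom N (↑S : Set ℕ))
    (fun _ hℓ hℓN hℓS φ => coe_latHom_T N (↑S : Set ℕ) hℓ hℓN hℓS φ)
    (fun t ht => faith_of_H (↑S : Set ℕ) (pow_pos hp.pos k) χ t ht)

theorem weakCheb : WeakCheb := fun L _ σ S =>
  Fermat.Agent.Lib.FrobDensity.exists_frobenius_generator L σ S

/-- **S30 from Kummer packages.** -/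
theorem S30_of_packages (pk : ∀ (N : ℕ) [NeZero N] (n : ℕ), 0 < n → Nonempty (KummerPackage N n))
    (p : ℕ) [Fact p.Prime] (N : ℕ) [NeZero N] (S : Finset ℕ)
    (hpS : p ∈ S) (hNS : ∀ q : ℕ, q.Prime → q ∣ N → q ∈ S)
    (𝒪' : Type) [CommRing 𝒪'] [IsDomain 𝒪'] [IsDiscreteValuationRing 𝒪']
    [IsAdicComplete (IsLocalRing.maximalIdeal 𝒪') 𝒪'] [Finite (IsLocalRing.ResidueField 𝒪')]
    [CharZero 𝒪'] (hp𝒪' : (p : 𝒪') ∈ IsLocalRing.maximalIdeal 𝒪')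
    (χ : CuspForm.heckeAlgebra N 2 (↑S : Set ℕ) →+* 𝒪') :
    ∃ (𝒪'' : Type) (_ : CommRing 𝒪'') (_ : IsDomain 𝒪'') (_ : IsDiscreteValuationRing 𝒪'')
      (_ : IsAdicComplete (IsLocalRing.maximalIdeal 𝒪'') 𝒪'')
      (_ : Finite (IsLocalRing.ResidueField 𝒪'')) (_ : CharZero 𝒪'')
      (_ : Algebra 𝒪' 𝒪'') (_ : Module.Finite 𝒪' 𝒪'') (_ : IsLocalHom (algebraMap 𝒪' 𝒪'')),
    Function.Injective (algebraMap 𝒪' 𝒪'') ∧
    ∃ ρ : GaloisRepAdic 𝒪'',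
      (∀ (ℓ : ℕ) (hℓ : ℓ.Prime) (hℓN : ¬ ℓ ∣ N) (hℓS : ℓ ∉ (↑S : Set ℕ)),
        ∀ A : ValuationSubring (AlgebraicClosure ℚ), A.LiesOverPrime ℓ →
          ∀ σ : AlgebraicClosure ℚ ≃ₐ[ℚ] AlgebraicClosure ℚ, A.IsFrobeniusAt σ ℓ →
            LinearMap.charpoly (ρ.ρ σ) =
              X ^ 2 - C (algebraMap 𝒪' 𝒪'' (χ (CuspForm.heckeAlgebra.T hℓ hℓN hℓS))) * X
                + C ((ℓ : 𝒪''))) ∧
      (∀ q : ℕ, q.Prime → ¬ q ∣ N → q ≠ p → ρ.IsUnramifiedAt q) := by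
  have hp : p.Prime := Fact.out
  refine result_of_tower weakCheb p N S hpS hNS 𝒪' hp𝒪' χ fun k => ?_
  exact (nonempty_level_of_package hp hpS hNS χ k (pk N (p ^ k) (pow_pos hp.pos k)).some).some

end Fermat.Agent.GAL.Tower
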