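/-
Cluster GAL, block 15 (helper46).  The Kummer model `E.W N n` has as many elements as
`Pic⁰(X₀(N))[n]`; consequently an injective map from `E.W N n` to a finite set with
`#Pic⁰(X₀(N))[n]` elements is onto.
-/
import Fermat.Agent.GAL.E.Defs
import Fermat.Agent.S27.Cls
import Fermat.Agent.S24.Export.Ramification

set_option autoImplicit false

noncomputable section

namespace Fermat.Agent.GAL.Tower

open AlgebraicCurve ModularCurve Fermat.Agent.S24 Fermat.Agent.S24.FF Fermat.Agent.S27
open Fermat.Agent.GAL.E (kum pows W Wm IsKum)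

section General

variable {K F : Type*} [Field K] [Field F] [Algebra K F] [IsAlgClosed K] [CharZero K] [IsFF1 K F]

/-- an element without zeros and poles is constant -/
theorem exists_const_of_ord_eq_zero (f : F) (hf : ∀ v : Place K F, v.ord f = 0) :
    ∃ a : K, f = algebraMap K F a := by
  rcases exists_const_or_transcendental (K := K) f with h | htr
  · exact h
  · exfalso
    obtain ⟨s, hs, hsum⟩ := exists_finset_ord_pos f htr
    have : FiniteDimensional (IntermediateField.adjoin K {f}) F := IsFF1.finite f htr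
    have hpos : 0 < Module.finrank (IntermediateField.adjoin K {f}) F := Module.finrank_pos
    rw [Finset.sum_congr rfl fun v _ => hf v, Finset.sum_const_zero] at hsum
    omega

omit [IsAlgClosed K] [CharZero K] [IsFF1 K F] in
theorem cls_nsmul_of_degree {D : Divisor K F} (hD : Divisor.degree D = 0) (n : ℕ) :
    cls (n • D) = n • cls D := by
  induction n with
  | zero => rw [zero_nsmul, zero_nsmul, cls_zero]
  | succ k ih =>
    rw [succ_nsmul, succ_nsmul, cls_add (by rw [map_nsmul, hD, smul_zero]) hD, ih]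

/-- The divisor `(div u) / n`. -/
def divDiv (n : ℕ) (u : F) : Divisor K F :=
  Finsupp.ofSupportFinite (fun v : Place K F => v.ord u / (n : ℤ))
    ((finite_ord_ne_zero (K := K) u).subset (by
      intro v hv h0
      apply hv
      show v.ord u / (n : ℤ) = 0
      rw [h0, Int.zero_ediv]))

theorem divDiv_apply (n : ℕ) (u : F) (v : Place K F) :
    (divDiv n u : Divisor K F) v = v.ord u / (n : ℤ) := rfl

theorem nsmul_divDiv {n : ℕ} {u : F} (hu : ∀ v : Place K F, (n : ℤ) ∣ v.ord u)
    (v : Place K F) : (n • (divDiv n u : Divisor K F)) v = v.ord u := by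
  rw [Finsupp.smul_apply, divDiv_apply, nsmul_eq_mul, Int.mul_ediv_cancel' (hu v)]

theorem degree_divDiv {n : ℕ} (hn : 0 < n) {u : F} (hu0 : u ≠ 0)
    (hu : ∀ v : Place K F, (n : ℤ) ∣ v.ord u) :
    Divisor.degree (divDiv n u : Divisor K F) = 0 := by
  have h1 : Divisor.degree (n • (divDiv n u : Divisor K F)) = 0 :=
    IsDivOf.degree (f := u) ⟨hu0, nsmul_divDiv hu⟩
  rw [map_nsmul, nsmul_eq_mul] at h1
  rcases mul_eq_zero.mp h1 with h | h
  · exact absurd (by exact_mod_cast h) hn.ne'
  · exact h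

theorem divDiv_mul {n : ℕ} {u w : F} (hu0 : u ≠ 0) (hw0 : w ≠ 0)
    (hu : ∀ v : Place K F, (n : ℤ) ∣ v.ord u) :
    (divDiv n (u * w) : Divisor K F) = divDiv n u + divDiv n w := by
  ext v
  rw [Finsupp.add_apply, divDiv_apply, divDiv_apply, divDiv_apply, v.ord_mul hu0 hw0,
    Int.add_ediv_of_dvd_left (hu v)]

/-- `(div u) / n` is principal iff `u` is an `n`-th power. -/
theorem cls_divDiv_eq_zero_iff {n : ℕ} (hn : 0 < n) {u : F} (hu0 : u ≠ 0)
    (hu : ∀ v : Place K F, (n : ℤ) ∣ v.ord u) :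
    cls (divDiv n u : Divisor K F) = 0 ↔ ∃ w : F, w ^ n = u := by
  rw [cls_eq_zero_iff (degree_divDiv hn hu0 hu)]
  have hn' : (n : ℤ) ≠ 0 := by exact_mod_cast hn.ne'
  constructor
  · rintro ⟨h, hh0, hh⟩
    have hord : ∀ v : Place K F, v.ord (u / h ^ n) = 0 := by
      intro v
      rw [div_eq_mul_inv, v.ord_mul hu0 (inv_ne_zero (pow_ne_zero n hh0)), v.ord_inv, ord_pow,
        ← hh v, divDiv_apply, Int.mul_ediv_cancel' (hu v), add_neg_cancel]
    obtain ⟨a, ha⟩ := exists_const_of_ord_eq_zero (K := K) _ hord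
    obtain ⟨b, hb⟩ := IsAlgClosed.exists_pow_nat_eq a hn
    refine ⟨algebraMap K F b * h, ?_⟩
    rw [mul_pow, ← map_pow, hb, ← ha, div_mul_cancel₀ _ (pow_ne_zero n hh0)]
  · rintro ⟨w, rfl⟩
    have hw0 : w ≠ 0 := by
      rintro rfl
      exact hu0 (zero_pow hn.ne')
    refine ⟨w, hw0, fun v => ?_⟩
    rw [divDiv_apply, ord_pow, Int.mul_ediv_cancel_left _ hn']

end General

section Modular

variable (N n : ℕ) [NeZero N]

local instance instIsFF1FN : IsFF1 Kbar (FN N) := Export.isFF1 N

/-- The map `u ↦ [(div u) / n]` on Kummer units. -/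
def kumToPic (hn : 0 < n) : kum N n →* Multiplicative (Pic0 Kbar (FN N)) :=
  { toFun := fun u => Multiplicative.ofAdd (cls (divDiv n ((u : (FN N)ˣ) : FN N)))
    map_one' := by
      have h : cls (divDiv n (1 : FN N) : Divisor Kbar (FN N)) = 0 :=
        (cls_divDiv_eq_zero_iff hn one_ne_zero (E.isKum_one N n)).mpr ⟨1, one_pow n⟩
      show Multiplicative.ofAdd (cls (divDiv n (1 : FN N) : Divisor Kbar (FN N))) = 1
      rw [h]
      rfl
    map_mul' := by
      intro u w
      show Multiplicative.ofAdd (cls (divDiv n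
        (((u : (FN N)ˣ) : FN N) * ((w : (FN N)ˣ) : FN N)) : Divisor Kbar (FN N))) = _
      rw [divDiv_mul (u : (FN N)ˣ).ne_zero (w : (FN N)ˣ).ne_zero u.2,
        cls_add (degree_divDiv hn (u : (FN N)ˣ).ne_zero u.2)
          (degree_divDiv hn (w : (FN N)ˣ).ne_zero w.2)]
      rfl }

theorem kumToPic_apply (hn : 0 < n) (u : kum N n) :
    kumToPic N n hn u = Multiplicative.ofAdd (cls (divDiv n ((u : (FN N)ˣ) : FN N))) := rfl

theorem ker_kumToPic (hn : 0 < n) :
    (kumToPic N n hn).ker = (pows N n).subgroupOf (kum N n) := by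
  ext u
  rw [MonoidHom.mem_ker, Subgroup.mem_subgroupOf, kumToPic_apply]
  have h1 : Multiplicative.ofAdd (cls (divDiv n ((u : (FN N)ˣ) : FN N)) : Pic0 Kbar (FN N)) = 1 ↔
      cls (divDiv n ((u : (FN N)ˣ) : FN N) : Divisor Kbar (FN N)) = 0 := Iff.rfl
  rw [h1, cls_divDiv_eq_zero_iff hn (u : (FN N)ˣ).ne_zero u.2]
  constructor
  · rintro ⟨w, hw⟩
    exact E.mem_pows_of_eq_pow hw.symm
  · rintro ⟨w, hw⟩
    refine ⟨(w : FN N), ?_⟩
    rw [← hw]
    simp

theorem mem_range_kumToPic_iff (hn : 0 < n) (c : Pic0 Kbar (FN N)) :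
    Multiplicative.ofAdd c ∈ (kumToPic N n hn).range ↔ c ∈ Pic0.torsion Kbar (FN N) n := by
  constructor
  · rintro ⟨u, hu⟩
    have hc : c = cls (divDiv n ((u : (FN N)ˣ) : FN N)) := (Multiplicative.ofAdd.injective hu).symm
    rw [Pic0.mem_torsion, natCast_zsmul, hc,
      ← cls_nsmul_of_degree (degree_divDiv hn (u : (FN N)ˣ).ne_zero u.2),
      cls_eq_zero_iff (by rw [map_nsmul, degree_divDiv hn (u : (FN N)ˣ).ne_zero u.2, smul_zero])]
    exact ⟨_, (u : (FN N)ˣ).ne_zero, nsmul_divDiv u.2⟩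
  · intro hc
    obtain ⟨D, hD, rfl⟩ := cls_surjective c
    rw [Pic0.mem_torsion, natCast_zsmul, ← cls_nsmul_of_degree hD,
      cls_eq_zero_iff (by rw [map_nsmul, hD, smul_zero])] at hc
    obtain ⟨u, hu0, hDu⟩ := hc
    have hord : ∀ v : Place Kbar (FN N), v.ord u = n * D v := fun v => by
      rw [← hDu v, Finsupp.smul_apply, nsmul_eq_mul]
    have hkum : IsKum N n u := fun v => ⟨D v, hord v⟩
    refine ⟨⟨Units.mk0 u hu0, hkum⟩, ?_⟩
    rw [kumToPic_apply]
    congr 2
    ext v
    have hn' : (n : ℤ) ≠ 0 := by exact_mod_cast hn.ne'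
    show v.ord u / (n : ℤ) = D v
    rw [hord v, Int.mul_ediv_cancel_left _ hn']

/-- **The Kummer model has as many elements as `Pic⁰[n]`.** -/
theorem card_W_eq_card_torsion (hn : 0 < n) :
    Nat.card (W N n) = Nat.card (Pic0.torsion Kbar (FN N) n) := by
  have e1 : Wm N n ≃ (kumToPic N n hn).range :=
    ((QuotientGroup.quotientMulEquivOfEq (ker_kumToPic N n hn).symm).trans
      (QuotientGroup.quotientKerEquivRange (kumToPic N n hn))).toEquiv
  have e2 : (kumToPic N n hn).range ≃ Pic0.torsion Kbar (FN N) n :=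
    { toFun := fun x => ⟨Multiplicative.toAdd x.1, (mem_range_kumToPic_iff N n hn _).mp x.2⟩
      invFun := fun c => ⟨Multiplicative.ofAdd c.1, (mem_range_kumToPic_iff N n hn _).mpr c.2⟩
      left_inv := fun _ => rfl
      right_inv := fun _ => rfl }
  exact Nat.card_congr ((Additive.toMul.trans e1).trans e2)

/-- An injective map from the Kummer model to a finite type of the right cardinality is onto. -/
theorem surjective_of_injective_of_card (hn : 0 < n) {X : Type*} [Finite X]
    (hX : Nat.card (Pic0.torsion Kbar (FN N) n) = Nat.card X) (f : W N n → X)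
    (hf : Function.Injective f) : Function.Surjective f := by
  have : Finite (W N n) := Finite.of_injective f hf
  have hcard : Nat.card (W N n) = Nat.card X := by rw [card_W_eq_card_torsion N n hn, hX]
  exact ((Nat.bijective_iff_injective_and_card f).mpr ⟨hf, hcard⟩).2

end Modular

end Fermat.Agent.GAL.Tower

end
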