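/-
Cluster GAL, block 15 (helper46).  Surjectivity of the multiplier map from its injectivity and
the count `#Pic⁰(X₀(N))[n] = #Hom_{par,ell}(Γ₀(N), ℤ/n)` (block NV).
-/
import Fermat.Agent.GAL.Tower.PicBridge
import Fermat.Agent.S16.Lift.Count

set_option autoImplicit false

namespace Fermat.Agent.GAL.Tower

open AlgebraicCurve Fermat.Agent.S24 Fermat.Agent.S16.Lift CongruenceSubgroup

/-- The field `mult_surjective` of `KummerPackage`, from the fields `mult_injective`, `mult_mem`
and the count of block NV (`Fermat.Agent.NV2.card_torsion_FN`). -/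
theorem mult_surjective_of_card (N n : ℕ) [NeZero N] (hn : 0 < n)
    (hcard : Nat.card (Pic0.torsion Kbar (FN N) n) = Nat.card (homPE N (ZMod n)))
    (μ : E.W N n →+ (Additive (Gamma0 N) →+ ZMod n)) (hinj : Function.Injective μ)
    (hmem : ∀ w, μ w ∈ homPE N (ZMod n)) :
    ∀ ψ ∈ homPE N (ZMod n), ∃ w, μ w = ψ := by
  have hfin : Finite (homPE N (ZMod n)) := by
    apply Nat.finite_of_card_ne_zero
    rw [card_homPE N n hn]
    exact (pow_pos hn _).ne'
  have hsurj := surjective_of_injective_of_card N n hn hcard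
    (fun w => (⟨μ w, hmem w⟩ : homPE N (ZMod n)))
    (fun v w h => hinj (congrArg Subtype.val h))
  intro ψ hψ
  obtain ⟨w, hw⟩ := hsurj ⟨ψ, hψ⟩
  exact ⟨w, congrArg Subtype.val hw⟩

end Fermat.Agent.GAL.Tower
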